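import Mathlib
import Fermat.Agent.H01.P2.Full2
import Fermat.Agent.H28N.Sel3M
import Fermat.Agent.H09.M2G
import Fermat.Agent.Ell.Sel3G
import Fermat.Agent.ZK.SwitchFin
import Fermat.Agent.H18O.Lift3

/-!
# Level lowering for semistable curves (all odd primes)
-/

set_option autoImplicit false
set_option linter.unusedSectionVars false

noncomputable section

namespace Fermat.Agent.H07.L38

open Fermat.Agent.TW Fermat.Agent.CC Fermat.Agent.Ell Fermat.Agent.H12.LL Fermat.Agent.TFin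
open Fermat.Agent.H25 Fermat.Agent.H25.PT Fermat.Agent.H18O
open IsLocalRing CongruenceSubgroup WeierstrassCurve
open ModularFormClass (qCoeff)

/-- every semistable curve is modular of exact conductor level -/
theorem full : P2.Full :=
  P2.full_of_mz2 H09.M2.mz2All_three H09.M2.mz2All_five H28N.sel3Mult Ell.sel3Good ZK.switch5Two

variable {W : WeierstrassCurve ℤ} {p : ℕ} [hp : Fact p.Prime]

/-- Mazur's principle at two for all odd primes -/
theorem mz2 (hΔ : W.Δ ≠ 0) (hirr : W.ModRepIsIrreducible p) (hp2 : p ≠ 2) : Mz2 W p := by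
  by_cases hp3 : p = 3
  · subst hp3
    exact H09.M2.mz2_three hΔ hirr
  · exact H09.M2.mz2_five hΔ hirr hp2 hp3

theorem aux (hΔ : W.Δ ≠ 0) (hss : W.IsSemistableModel) (hirr : W.ModRepIsIrreducible p) :
    p = 3 → ∃ r : ℕ, AuxR W p r := by
  intro hp3
  subst hp3
  exact auxAll_three W hΔ hss hirr

/-- residual modularity of conductor level -/
theorem exists_rm (hΔ : W.Δ ≠ 0) (hss : W.IsSemistableModel) :
    ∃ N : ℕ, Squarefree N ∧ (∀ q : ℕ, q.Prime → (q ∣ N ↔ (q : ℤ) ∣ W.Δ)) ∧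
      W.IsResiduallyModularOfLevel p N := by
  obtain ⟨N, hN, hsq, hsupp, f, hf, hfW⟩ := full W hΔ hss
  obtain ⟨𝔪, hmax, hmem⟩ := FLTPrelim.exists_maximalIdeal_natCast_prime_mem (p := p) hp.out
  refine ⟨N, hsq, hsupp, f, 𝔪, hf, hmax, hmem, fun ℓ hℓ hgood hℓN hℓp => ?_⟩
  refine ⟨((W.apOfModel ℓ : ℤ) : integralClosure ℤ ℂ), ?_, ?_⟩
  · rw [hfW ℓ hℓ hgood hℓN]
    simp
  · rw [sub_self]
    exact 𝔪.zero_mem

/-- **the minimal level** -/
theorem exists_minU_all (hΔ : W.Δ ≠ 0) (hss : W.IsSemistableModel)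
    (hirr : W.ModRepIsIrreducible p) (hp2 : p ≠ 2) : ∃ N : ℕ, MinU W p N := by
  obtain ⟨M₀, hsq, hsupp, hRM⟩ := exists_rm (p := p) hΔ hss
  have hpM : p ∣ M₀ → (p : ℤ) ∣ W.Δ := (hsupp p hp.out).1
  have hS : ModeS W p → (p : ℤ) ∣ W.Δ := by
    intro hS
    have hne : Nat.lcm 2 M₀ ≠ 0 := Nat.lcm_ne_zero two_ne_zero hsq.ne_zero
    have hsq2 : Squarefree (Nat.lcm 2 M₀) := by
      by_cases h2 : 2 ∣ M₀
      · rw [Nat.lcm_eq_right h2]; exact hsq
      · rw [Nat.Coprime.lcm_eq_mul ((Nat.Prime.coprime_iff_not_dvd Nat.prime_two).mpr h2)]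
        exact (Nat.squarefree_mul_iff).mpr
          ⟨(Nat.Prime.coprime_iff_not_dvd Nat.prime_two).mpr h2, Nat.prime_two.prime.squarefree,
            hsq⟩
    have h1 := hS _ hsq2 (Nat.dvd_lcm_left _ _)
      (H18R.isResiduallyModular_mono hΔ hirr hRM (Nat.dvd_lcm_right _ _) hne)
    refine hpM (((Nat.Prime.dvd_mul hp.out).mp (h1.trans (Nat.lcm_dvd_mul _ _))).resolve_left ?_)
    exact fun h4 => hp2 ((Nat.prime_dvd_prime_iff_eq hp.out Nat.prime_two).mp h4)
  exact exists_minU (step1In_of_geo hΔ hirr hp2 (geo_all hp.out)) hΔ hirr hp2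
    (mz2 hΔ hirr hp2) (aux hΔ hss hirr) (llAll p hp2 W hΔ hss hirr _ hS) hsq hpM hRM

/-- **Ribet's level lowering for semistable curves** -/
theorem lower (hΔ : W.Δ ≠ 0) (hss : W.IsSemistableModel) (hirr : W.ModRepIsIrreducible p)
    (hp2 : p ≠ 2) {M q : ℕ} (hq : q.Prime) (hqp : q ≠ p) (hqM : q ∣ M) (hM : Squarefree M)
    (hunr : UnrAt W p q) (hRM : W.IsResiduallyModularOfLevel p M) :
    W.IsResiduallyModularOfLevel p (M / q) := by
  obtain ⟨N, hN⟩ := exists_minU_all hΔ hss hirr hp2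
  obtain ⟨c, rfl⟩ := hqM
  rw [Nat.mul_div_cancel_left c hq.pos]
  have hc0 : c ≠ 0 := fun h => hM.ne_zero (by rw [h, mul_zero])
  refine H18R.isResiduallyModular_mono hΔ hirr hN.rm ?_ hc0
  rw [← Nat.prod_primeFactors_of_squarefree hN.sq]
  refine Finset.prod_primes_dvd _ (fun ℓ hℓ => (Nat.prime_of_mem_primeFactors hℓ).prime)
    fun ℓ hℓ => ?_
  have hℓp := Nat.prime_of_mem_primeFactors hℓ
  have hℓN := Nat.dvd_of_mem_primeFactors hℓ
  -- primes of the minimal level divide the level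
  have key : ℓ ∣ q * c ∧ ℓ ≠ q := by
    by_cases hpℓ : ℓ = p
    · subst hpℓ
      refine ⟨?_, hqp.symm⟩
      have hS : ModeS W ℓ := hN.mode.1 hℓN
      have hne : Nat.lcm 2 (q * c) ≠ 0 := Nat.lcm_ne_zero two_ne_zero hM.ne_zero
      have hsq2 : Squarefree (Nat.lcm 2 (q * c)) := by
        by_cases h2 : 2 ∣ q * c
        · rw [Nat.lcm_eq_right h2]; exact hM
        · rw [Nat.Coprime.lcm_eq_mul ((Nat.Prime.coprime_iff_not_dvd Nat.prime_two).mpr h2)]
          exact (Nat.squarefree_mul_iff).mpr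
            ⟨(Nat.Prime.coprime_iff_not_dvd Nat.prime_two).mpr h2,
              Nat.prime_two.prime.squarefree, hM⟩
      have h1 := hS _ hsq2 (Nat.dvd_lcm_left _ _)
        (H18R.isResiduallyModular_mono hΔ hirr hRM (Nat.dvd_lcm_right _ _) hne)
      refine ((Nat.Prime.dvd_mul hℓp).mp (h1.trans (Nat.lcm_dvd_mul _ _))).resolve_left ?_
      exact fun h4 => hp2 ((Nat.prime_dvd_prime_iff_eq hℓp Nat.prime_two).mp h4)
    · have hram := hN.ram ℓ hℓp hpℓ hℓN
      refine ⟨?_, fun h => hram (h ▸ hunr)⟩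
      by_contra hnd
      exact hram (H11N.unrAt_of_residual hΔ hirr hp2 hM.ne_zero hRM hℓp hnd hpℓ)
  refine ((Nat.Prime.dvd_mul hℓp).mp key.1).resolve_left fun h => ?_
  exact key.2 ((Nat.prime_dvd_prime_iff_eq hℓp hq).mp h)

end Fermat.Agent.H07.L38
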